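import Mathlib.Analysis.Complex.Polynomial.Basic
import Mathlib.Analysis.Complex.Exponential
import Mathlib.Analysis.SpecialFunctions.Complex.Log
import Mathlib.Algebra.BigOperators.Ring.Finset
import Mathlib.Data.Fintype.Powerset

/-!
# The circle theorem of Lee and Yang

Adding one coupling `a ∈ [-1, 1]` between two variables keeps a multi-affine polynomial free of
zeros in the open polydisc (Asano's contraction), so `∑ cut weights × monomials` has none.
-/

set_option autoImplicit false

noncomputable section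

namespace FA.LeeYang

open Finset

theorem norm_le_of_linear {p q : ℂ} (h : ∀ x : ℂ, ‖x‖ < 1 → p + q * x ≠ 0) : ‖q‖ ≤ ‖p‖ := by
  by_contra hlt
  rw [not_le] at hlt
  have hq : q ≠ 0 := norm_pos_iff.1 ((norm_nonneg p).trans_lt hlt)
  refine h (-p / q) ?_ (by field_simp; ring)
  rw [norm_div, norm_neg, div_lt_one (norm_pos_iff.2 hq)]
  exact hlt

/-- A bilinear polynomial without zero in the bidisc has its top below its constant term. -/
theorem norm_le_of_bilinear {p q r s : ℂ}
    (h : ∀ x y : ℂ, ‖x‖ < 1 → ‖y‖ < 1 → p + q * x + r * y + s * (x * y) ≠ 0) : ‖s‖ ≤ ‖p‖ := by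
  by_contra hlt
  rw [not_le] at hlt
  have hs : s ≠ 0 := norm_pos_iff.1 ((norm_nonneg p).trans_lt hlt)
  obtain ⟨w, hw⟩ := IsAlgClosed.exists_pow_nat_eq ((q + r) ^ 2 - 4 * s * p) two_pos
  have hroot : ∀ t : ℂ, 2 * s * t + (q + r) = w ∨ 2 * s * t + (q + r) = -w →
      p + q * t + r * t + s * (t * t) = 0 := fun t ht => by
    have h2 : (2 * s * t + (q + r)) ^ 2 = w ^ 2 := by
      rcases ht with ht | ht <;> rw [ht]
      ring
    refine mul_left_cancel₀ (mul_ne_zero (by norm_num : (4 : ℂ) ≠ 0) hs) ?_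
    rw [mul_zero]
    linear_combination h2 + hw
  have hmul : (w - (q + r)) / (2 * s) * ((-w - (q + r)) / (2 * s)) = p / s := by
    field_simp
    linear_combination -hw
  obtain ⟨t, ht, hnorm⟩ : ∃ t : ℂ, (2 * s * t + (q + r) = w ∨ 2 * s * t + (q + r) = -w) ∧
      ‖t‖ < 1 := by
    by_contra hall
    simp only [not_exists, not_and, not_lt] at hall
    have h1 := hall ((w - (q + r)) / (2 * s)) (Or.inl (by field_simp; ring))
    have h2 := hall ((-w - (q + r)) / (2 * s)) (Or.inr (by field_simp; ring))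
    have h3 := one_le_mul_of_one_le_of_one_le h1 h2
    rw [← norm_mul, hmul, norm_div, one_le_div (norm_pos_iff.2 hs)] at h3
    linarith
  exact h t t hnorm hnorm (hroot t ht)

theorem norm_moebius_le {a : ℝ} (ha : |a| ≤ 1) {v : ℂ} (hv : ‖v‖ < 1) :
    ‖(a : ℂ) + v‖ ≤ ‖1 + (a : ℂ) * v‖ ∧ 1 + (a : ℂ) * v ≠ 0 := by
  refine ⟨?_, fun h0 => ?_⟩
  · refine le_of_pow_le_pow_left₀ two_ne_zero (norm_nonneg _) ?_
    rw [← Complex.normSq_eq_norm_sq, ← Complex.normSq_eq_norm_sq]
    have ha2 : a ^ 2 ≤ 1 := (sq_le_one_iff_abs_le_one a).2 ha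
    have hv2 : v.re ^ 2 + v.im ^ 2 ≤ 1 := by
      have := pow_le_one₀ (norm_nonneg v) hv.le (n := 2)
      rw [← Complex.normSq_eq_norm_sq, Complex.normSq_apply] at this
      linarith
    simp only [Complex.normSq_apply, Complex.add_re, Complex.add_im, Complex.mul_re, Complex.mul_im,
      Complex.ofReal_re, Complex.ofReal_im, Complex.one_re, Complex.one_im]
    nlinarith [mul_nonneg (sub_nonneg.2 ha2) (sub_nonneg.2 hv2)]
  · have h1 : ‖(a : ℂ) * v‖ = 1 := by rw [eq_neg_of_add_eq_zero_right h0, norm_neg, norm_one]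
    rw [norm_mul, Complex.norm_real, Real.norm_eq_abs] at h1
    have := mul_le_mul_of_nonneg_right ha (norm_nonneg v)
    linarith

/-- **Asano's contraction with one coupling.** -/
theorem bilinear_coupling {p q r s : ℂ}
    (h : ∀ x y : ℂ, ‖x‖ < 1 → ‖y‖ < 1 → p + q * x + r * y + s * (x * y) ≠ 0) {a : ℝ}
    (ha : |a| ≤ 1) {x y : ℂ} (hx : ‖x‖ < 1) (hy : ‖y‖ < 1) :
    p + a * q * x + a * r * y + s * (x * y) ≠ 0 := by
  have hfree : ∀ u v : ℂ, ‖u‖ < 1 → ‖v‖ < 1 →
      (p + a * q * x) + (r + a * s * x) * u + (a * p + q * x) * v +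
        (a * r + s * x) * (u * v) ≠ 0 := by
    intro u v hu hv h0
    have h1 : ‖q + s * u‖ ≤ ‖p + r * u‖ := norm_le_of_linear fun t ht h' => h t u ht hu (by
      linear_combination h')
    obtain ⟨h2, h2'⟩ := norm_moebius_le ha hv
    have h3 : p + r * u ≠ 0 := fun h' => h 0 u (by simp) hu (by linear_combination h')
    have h4 : (p + r * u) * (1 + a * v) = -((q + s * u) * (a + v) * x) := by
      linear_combination h0
    have h5 := congrArg norm h4
    rw [norm_neg, norm_mul, norm_mul, norm_mul] at h5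
    have hpos : 0 < ‖p + r * u‖ * ‖1 + (a : ℂ) * v‖ :=
      mul_pos (norm_pos_iff.2 h3) (norm_pos_iff.2 h2')
    have h6 : ‖q + s * u‖ * ‖(a : ℂ) + v‖ * ‖x‖ ≤
        ‖p + r * u‖ * ‖1 + (a : ℂ) * v‖ * ‖x‖ :=
      mul_le_mul_of_nonneg_right (mul_le_mul h1 h2 (norm_nonneg _) (norm_nonneg _)) (norm_nonneg x)
    have h7 := mul_lt_mul_of_pos_left hx hpos
    linarith
  have hle := norm_le_of_bilinear hfree
  have hne : p + a * q * x ≠ 0 := fun h' => hfree 0 0 (by simp) (by simp) (by linear_combination h')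
  intro h0
  have h8 : p + a * q * x = -((a * r + s * x) * y) := by linear_combination h0
  have h9 := congrArg norm h8
  rw [norm_neg, norm_mul] at h9
  have h10 := mul_le_mul_of_nonneg_right hle (norm_nonneg y)
  have h11 := mul_lt_mul_of_pos_left hy (norm_pos_iff.2 hne)
  linarith

variable {ι : Type*} [Fintype ι] [DecidableEq ι]

/-- No zero in the open polydisc. -/
def Stable (f : Finset ι → ℂ) : Prop :=
  ∀ z : ι → ℂ, (∀ i, ‖z i‖ < 1) → ∑ S, f S * ∏ i ∈ S, z i ≠ 0

/-- The product of the couplings cut by `S`. -/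
def cutWeight (E : Finset (ι × ι)) (a : ι × ι → ℝ) (S : Finset ι) : ℝ :=
  ∏ e ∈ E, if (e.1 ∈ S ↔ e.2 ∈ S) then 1 else a e

theorem stable_coupling {f : Finset ι → ℂ} (hf : Stable f) (i j : ι) {a : ℝ} (ha : |a| ≤ 1) :
    Stable fun S => f S * if (i ∈ S ↔ j ∈ S) then 1 else (a : ℂ) := by
  rcases eq_or_ne i j with rfl | hij
  · simpa using hf
  intro z hz
  obtain ⟨R, hR⟩ : ∃ R : Finset ι → ℂ, ∀ S, R S = ∏ l ∈ (S.erase i).erase j, z l :=
    ⟨_, fun _ => rfl⟩
  obtain ⟨P, hP⟩ : ∃ P : Bool → Bool → ℂ, ∀ α β, P α β =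
      ∑ S, if decide (i ∈ S) = α ∧ decide (j ∈ S) = β then f S * R S else 0 := ⟨_, fun _ _ => rfl⟩
  have key : ∀ (g : Bool → Bool → ℂ) (x y : ℂ),
      ∑ S, f S * g (decide (i ∈ S)) (decide (j ∈ S)) *
        ∏ l ∈ S, Function.update (Function.update z i x) j y l =
      g false false * P false false + g true false * P true false * x +
        g false true * P false true * y + g true true * P true true * (x * y) := by
    intro g x y
    have hprod : ∀ S : Finset ι, ∏ l ∈ S, Function.update (Function.update z i x) j y l =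
        (if i ∈ S then x else 1) * (if j ∈ S then y else 1) * R S := by
      intro S
      have hrest : ∀ T : Finset ι, T = (S.erase i).erase j →
          ∏ l ∈ T, Function.update (Function.update z i x) j y l = R S := fun T hT => by
        rw [hR, hT]
        refine prod_congr rfl fun l hl => ?_
        rw [mem_erase, mem_erase] at hl
        rw [Function.update_of_ne hl.1, Function.update_of_ne hl.2.1]
      by_cases hi : i ∈ S <;> by_cases hj : j ∈ S
      · rw [if_pos hi, if_pos hj, ← mul_prod_erase S _ hi,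
          ← mul_prod_erase (S.erase i) _ (mem_erase.2 ⟨hij.symm, hj⟩), hrest _ rfl,
          Function.update_of_ne hij, Function.update_self, Function.update_self, mul_assoc]
      · rw [if_pos hi, if_neg hj, mul_one, ← mul_prod_erase S _ hi,
          hrest _ (erase_eq_of_notMem fun h => hj (mem_of_mem_erase h)).symm,
          Function.update_of_ne hij, Function.update_self]
      · rw [if_neg hi, if_pos hj, one_mul, ← mul_prod_erase S _ hj,
          hrest _ (by rw [erase_eq_of_notMem hi]), Function.update_self]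
      · rw [if_neg hi, if_neg hj, one_mul, one_mul,
          hrest _ (by rw [erase_eq_of_notMem hi, erase_eq_of_notMem hj])]
    simp only [hP, mul_sum, sum_mul, ← sum_add_distrib]
    refine sum_congr rfl fun S _ => ?_
    rw [hprod S]
    by_cases hi : i ∈ S <;> by_cases hj : j ∈ S <;> simp [hi, hj] <;> ring
  have hbil : ∀ x y : ℂ, ‖x‖ < 1 → ‖y‖ < 1 →
      P false false + P true false * x + P false true * y + P true true * (x * y) ≠ 0 := by
    intro x y hx hy
    have h := hf (Function.update (Function.update z i x) j y) fun l => by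
      rcases eq_or_ne l j with rfl | hlj
      · rwa [Function.update_self]
      rw [Function.update_of_ne hlj]
      rcases eq_or_ne l i with rfl | hli
      · rwa [Function.update_self]
      · rw [Function.update_of_ne hli]
        exact hz l
    have e := key (fun _ _ => 1) x y
    simp only [mul_one, one_mul] at e
    rwa [e] at h
  have e := key (fun α β => if α = β then 1 else (a : ℂ)) (z i) (z j)
  simp only [Function.update_eq_self, decide_eq_decide, one_mul, reduceCtorEq,
    if_true, if_false] at e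
  show ∑ S, (f S * if (i ∈ S ↔ j ∈ S) then 1 else (a : ℂ)) * ∏ l ∈ S, z l ≠ 0
  rw [e]
  exact bilinear_coupling hbil ha (hz i) (hz j)

/-- **Lee and Yang.** -/
theorem stable_cutWeight (E : Finset (ι × ι)) {a : ι × ι → ℝ} (ha : ∀ e ∈ E, |a e| ≤ 1) :
    Stable fun S => (cutWeight E a S : ℂ) := by
  induction E using Finset.induction_on with
  | empty =>
    intro z hz
    simp only [cutWeight, prod_empty, Complex.ofReal_one, one_mul]
    rw [← powerset_univ, ← prod_one_add]
    refine prod_ne_zero_iff.2 fun i _ h0 => ?_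
    have := hz i
    rw [eq_neg_of_add_eq_zero_right h0, norm_neg, norm_one] at this
    exact lt_irrefl _ this
  | insert e E he ih =>
    have h := stable_coupling (ih fun e' he' => ha e' (mem_insert_of_mem he')) e.1 e.2
      (ha e (mem_insert_self e E))
    refine (congrArg Stable (funext fun S => ?_)).mp h
    rw [cutWeight, cutWeight, prod_insert he]
    split_ifs <;> simp [mul_comm]

theorem cutWeight_compl (E : Finset (ι × ι)) (a : ι × ι → ℝ) (S : Finset ι) :
    cutWeight E a Sᶜ = cutWeight E a S :=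
  prod_congr rfl fun e _ => by simp only [mem_compl, not_iff_not]

theorem norm_root_eq_one (E : Finset (ι × ι)) {a : ι × ι → ℝ} (ha : ∀ e ∈ E, |a e| ≤ 1) {t : ℂ}
    (h : ∑ S : Finset ι, (cutWeight E a S : ℂ) * t ^ S.card = 0) : ‖t‖ = 1 := by
  have key : ∀ u : ℂ, ‖u‖ < 1 → ∑ S : Finset ι, (cutWeight E a S : ℂ) * u ^ S.card ≠ 0 :=
    fun u hu => by
      have := stable_cutWeight E ha (fun _ => u) fun _ => hu
      simpa using this
  rcases lt_trichotomy ‖t‖ 1 with hlt | heq | hgt
  · exact absurd h (key t hlt)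
  · exact heq
  have ht : t ≠ 0 := norm_pos_iff.1 (one_pos.trans hgt)
  refine absurd ?_ (key t⁻¹ (by rw [norm_inv]; exact inv_lt_one_of_one_lt₀ hgt))
  refine (mul_eq_zero.1 (?_ : t ^ Fintype.card ι * _ = 0)).resolve_left (pow_ne_zero _ ht)
  rw [mul_sum, ← h]
  refine sum_nbij' compl compl (fun _ _ => mem_univ _) (fun _ _ => mem_univ _)
    (fun S _ => compl_compl S) (fun S _ => compl_compl S) fun S _ => ?_
  have hle : S.card ≤ Fintype.card ι := card_le_univ S
  rw [cutWeight_compl, card_compl, pow_sub₀ t ht hle, inv_pow]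
  ring

theorem cutWeight_matrix {A : ι → ι → ℝ} (hA : ∀ i j, A i j = A j i) (r : ι → ℕ)
    (hr : Function.Injective r) (S : Finset ι) :
    cutWeight ((univ : Finset (ι × ι)).filter fun e => r e.1 < r e.2) (fun e => A e.1 e.2) S =
      ∏ i ∈ S, ∏ j ∈ Sᶜ, A i j := by
  rw [cutWeight, prod_ite, prod_const_one, one_mul, ← prod_product', filter_filter]
  refine prod_nbij' (fun e => if e.1 ∈ S then e else e.swap)
    (fun e => if r e.1 < r e.2 then e else e.swap) ?_ ?_ ?_ ?_ ?_
  · intro e he
    simp only [mem_filter, mem_univ, true_and] at he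
    by_cases h1 : e.1 ∈ S
    · rw [if_pos h1]
      simp only [mem_product, mem_compl]
      exact ⟨h1, fun h2 => he.2 ⟨fun _ => h2, fun _ => h1⟩⟩
    · rw [if_neg h1]
      simp only [mem_product, mem_compl, Prod.fst_swap, Prod.snd_swap]
      refine ⟨?_, h1⟩
      by_contra h2
      exact he.2 ⟨fun h => absurd h h1, fun h => absurd h h2⟩
  · intro e he
    simp only [mem_product, mem_compl] at he
    have hne : r e.1 ≠ r e.2 := fun h => he.2 (hr h ▸ he.1)
    by_cases h1 : r e.1 < r e.2
    · rw [if_pos h1]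
      simp only [mem_filter, mem_univ, true_and]
      exact ⟨h1, fun h => he.2 (h.1 he.1)⟩
    · rw [if_neg h1]
      simp only [mem_filter, mem_univ, true_and, Prod.fst_swap, Prod.snd_swap]
      exact ⟨by omega, fun h => he.2 (h.2 he.1)⟩
  · intro e he
    simp only [mem_filter, mem_univ, true_and] at he
    by_cases h1 : e.1 ∈ S
    · simp [h1, he.1]
    · simp [h1, he.1.le.not_gt, Prod.swap_swap]
  · intro e he
    simp only [mem_product, mem_compl] at he
    by_cases h1 : r e.1 < r e.2
    · simp [h1, he.1]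
    · simp [h1, he.2, Prod.swap_swap]
  · intro e _
    by_cases h1 : e.1 ∈ S
    · simp [h1]
    · simp [h1, hA e.1 e.2]

/-- The spin of a site. -/
def spin (S : Finset ι) (i : ι) : ℝ := if i ∈ S then 1 else -1

/-- The partition function of the Ising model in the field `h`. -/
def ising (E : Finset (ι × ι)) (J : ι × ι → ℝ) (h : ℂ) : ℂ :=
  ∑ S : Finset ι, Complex.exp
    ((∑ e ∈ E, (J e * (spin S e.1 * spin S e.2) : ℝ) : ℂ) + h * ∑ i, (spin S i : ℂ))

theorem ising_eq (E : Finset (ι × ι)) (J : ι × ι → ℝ) (h : ℂ) :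
    ising E J h = (∏ e ∈ E, (Real.exp (J e) : ℂ)) * Complex.exp (-h) ^ Fintype.card ι *
      ∑ S : Finset ι, (cutWeight E (fun e => Real.exp (-(2 * J e))) S : ℂ) *
        Complex.exp (2 * h) ^ S.card := by
  rw [ising, mul_sum]
  refine sum_congr rfl fun S _ => ?_
  rw [Complex.exp_add, Complex.exp_sum, mul_sum, Complex.exp_sum]
  have h1 : ∏ e ∈ E, Complex.exp ((J e * (spin S e.1 * spin S e.2) : ℝ) : ℂ) =
      (∏ e ∈ E, (Real.exp (J e) : ℂ)) *
        (cutWeight E (fun e => Real.exp (-(2 * J e))) S : ℂ) := by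
    rw [cutWeight, Complex.ofReal_prod, ← prod_mul_distrib]
    refine prod_congr rfl fun e _ => ?_
    rw [← Complex.ofReal_exp, ← Complex.ofReal_mul, Complex.ofReal_inj]
    simp only [spin]
    by_cases h2 : e.1 ∈ S <;> by_cases h3 : e.2 ∈ S <;> simp [h2, h3, ← Real.exp_add] <;> ring
  have h4 : ∏ i, Complex.exp (h * (spin S i : ℂ)) =
      Complex.exp (-h) ^ Fintype.card ι * Complex.exp (2 * h) ^ S.card := by
    rw [← Finset.card_univ, ← prod_const, ← prod_const, ← Finset.univ_inter S, ← prod_ite_mem,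
      ← prod_mul_distrib]
    refine prod_congr rfl fun i _ => ?_
    simp only [spin, Finset.univ_inter]
    by_cases h2 : i ∈ S
    · simp only [h2, if_true, Complex.ofReal_one, mul_one, ← Complex.exp_add]
      congr 1
      ring
    · simp [h2]
  rw [h1, h4]
  ring

theorem re_eq_zero_of_ising_eq_zero (E : Finset (ι × ι)) {J : ι × ι → ℝ}
    (hJ : ∀ e ∈ E, 0 ≤ J e) {h : ℂ} (h0 : ising E J h = 0) : h.re = 0 := by
  rw [ising_eq, mul_eq_zero] at h0
  have hne : (∏ e ∈ E, (Real.exp (J e) : ℂ)) * Complex.exp (-h) ^ Fintype.card ι ≠ 0 :=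
    mul_ne_zero (prod_ne_zero_iff.2 fun e _ => Complex.ofReal_ne_zero.2 (Real.exp_ne_zero _))
      (pow_ne_zero _ (Complex.exp_ne_zero _))
  have h1 := norm_root_eq_one E (fun e he => by
    rw [abs_of_pos (Real.exp_pos _), Real.exp_le_one_iff]
    linarith [hJ e he]) (h0.resolve_left hne)
  rw [Complex.norm_exp, Real.exp_eq_one_iff, Complex.mul_re] at h1
  simpa using h1

end FA.LeeYang
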